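import Fermat.Agent.S37.II.DefsMod
import Fermat.Agent.S18.Chart.Const
import Fermat.Agent.S18.Descent.Chart
import Fermat.Agent.S18.Descent.Union

/-!
# S37 route II, DP3a: charts and base change of the constants.   Owner: helper294.
-/

set_option autoImplicit false

noncomputable section

namespace Fermat.Agent.S37.II

open AlgebraicCurve ModularCurve Fermat.Agent.S24 Fermat.Agent.S18 IntermediateField Polynomial

section DP3

variable {M ℓ : ℕ} (B : BaseData M ℓ) (A : ValuationSubring Kbar)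

theorem tb_xK (K₁ : IntermediateField ℚ Kbar) : tb M K₁ (B.xK K₁) = B.xK Kbar :=
  Subtype.ext (Descent.coeffMap_coeffEmb' _ _)

theorem Chart.tb_aeval (K₁ : IntermediateField ℚ Kbar) (z : FK K₁ M) (p : K₁[X]) :
    tb M K₁ (aeval z p) = aeval (tb M K₁ z) (p.map (algebraMap K₁ Kbar)) :=
  descChart_map_aeval (tb M K₁) (Descent.toBar_algebraMap (modularFunctionFieldFull M) K₁) z p

theorem Chart.tb_mem_polyRing (K₁ : IntermediateField ℚ Kbar) (z y : FK K₁ M)
    (hy : y ∈ polyRing (rs A K₁).toSubring z) :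
    tb M K₁ y ∈ polyRing A.toSubring (tb M K₁ z) := by
  obtain ⟨p, hp, rfl⟩ := (mem_polyRing_iff _ _ _).1 hy
  refine (mem_polyRing_iff _ _ _).2 ⟨p.map (algebraMap K₁ Kbar), fun i => ?_,
    (Chart.tb_aeval K₁ z p).symm⟩
  rw [coeff_map]
  exact hp i

theorem tb_mem_chart (K₁ : IntermediateField ℚ Kbar) (z b : FK K₁ M)
    (hb : b ∈ chart (rs A K₁).toSubring z) : tb M K₁ b ∈ chart A.toSubring (tb M K₁ z) := by
  rw [mem_chart_iff_isIntegral] at hb ⊢
  let φ : polyRing (rs A K₁).toSubring z →+* polyRing A.toSubring (tb M K₁ z) :=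
    ((tb M K₁).comp (polyRing (rs A K₁).toSubring z).subtype).codRestrict _
      (fun y => Chart.tb_mem_polyRing A K₁ z y y.2)
  exact IsIntegral.map_of_comp_eq φ (tb M K₁) (by ext; rfl) hb

theorem ev_mem_chart (K₀ : IntermediateField ℚ Kbar) (z : FK K₀ M) (b : FN M)
    (hb : b ∈ chart A.toSubring (tb M K₀ z)) :
    Ev fun K₁ => ∃ (z₁ b₁ : FK K₁ M), tb M K₁ z₁ = tb M K₀ z ∧ tb M K₁ b₁ = b ∧
      b₁ ∈ chart (rs A K₁).toSubring z₁ := by
  classical
  have : Algebra.IsAlgebraic ℚ Kbar := AlgebraicClosure.isAlgebraic ℚ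
  set Z : FN M := tb M K₀ z with hZ
  obtain ⟨P, hPm, hPb⟩ := (mem_chart_iff_isIntegral _ _ _).1 hb
  have hp : ∀ i, ∃ p : Kbar[X], (∀ j, p.coeff j ∈ A.toSubring) ∧
      aeval Z p = ((P.coeff i : polyRing A.toSubring Z) : FN M) :=
    fun i => (mem_polyRing_iff _ _ _).1 (P.coeff i).2
  choose p hpA hpZ using hp
  let c : Finset Kbar := (Finset.range (P.natDegree + 1)).biUnion fun i => (p i).coeffs
  obtain ⟨K', hfin, -, hc, hs⟩ := Descent.exists_definedOver_finset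
    (F₀ := modularFunctionFieldFull M) {(Z : LaurentSeries Kbar), (b : LaurentSeries Kbar)}
    (by
      intro x hx
      rcases Finset.mem_insert.1 hx with rfl | hx
      · exact Z.2
      · rw [Finset.mem_singleton.1 hx]
        exact b.2) c ⊥
  refine ⟨K', hfin, fun K₁ hK₁ => ?_⟩
  obtain ⟨z₁, hz₁, hz₁Z⟩ := (hs (Z : LaurentSeries Kbar) (by simp)).mono hK₁
  obtain ⟨b₁, hb₁, hb₁b⟩ := (hs (b : LaurentSeries Kbar) (by simp)).mono hK₁
  have hzZ : tb M K₁ ⟨z₁, hz₁⟩ = Z := Subtype.ext hz₁Z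
  have hbb : tb M K₁ ⟨b₁, hb₁⟩ = b := Subtype.ext hb₁b
  refine ⟨⟨z₁, hz₁⟩, ⟨b₁, hb₁⟩, hzZ, hbb, ?_⟩
  rw [mem_chart_iff_isIntegral]
  set R₁ := polyRing (rs A K₁).toSubring (⟨z₁, hz₁⟩ : FK K₁ M) with hR₁
  let f : R₁ →+* FN M := (tb M K₁).comp R₁.subtype
  have hlift : P.map (algebraMap (polyRing A.toSubring Z) (FN M)) ∈ Polynomial.lifts f := by
    rw [Polynomial.lifts_iff_coeff_lifts]
    intro i
    rw [coeff_map]
    by_cases hi : i ≤ P.natDegree
    · have hq : p i ∈ Polynomial.lifts (algebraMap K₁ Kbar) := by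
        rw [Polynomial.lifts_iff_coeff_lifts]
        intro j
        by_cases hj : (p i).coeff j = 0
        · exact ⟨0, by rw [hj, map_zero]⟩
        · have h1 : (p i).coeff j ∈ c :=
            Finset.mem_biUnion.2 ⟨i, Finset.mem_range.2 (Nat.lt_succ_of_le hi),
              Polynomial.coeff_mem_coeffs hj⟩
          exact ⟨⟨_, hK₁ (hc _ h1)⟩, rfl⟩
      obtain ⟨q, hq'⟩ := hq
      have hq : q.map (algebraMap K₁ Kbar) = p i := hq'
      have hmem : aeval (⟨z₁, hz₁⟩ : FK K₁ M) q ∈ R₁ := by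
        refine (mem_polyRing_iff _ _ _).2 ⟨q, fun j => ?_, rfl⟩
        show algebraMap K₁ Kbar (q.coeff j) ∈ A
        rw [← coeff_map, hq]
        exact hpA i j
      refine ⟨⟨_, hmem⟩, ?_⟩
      show tb M K₁ (aeval (⟨z₁, hz₁⟩ : FK K₁ M) q) = _
      rw [Chart.tb_aeval, hq, hzZ, hpZ]
      rfl
    · rw [Polynomial.coeff_eq_zero_of_natDegree_lt (not_le.1 hi), map_zero]
      exact ⟨0, map_zero _⟩
  obtain ⟨Q, hQ, -, hQm⟩ := Polynomial.lifts_and_natDegree_eq_and_monic hlift (hPm.map _)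
  refine ⟨Q, hQm, ?_⟩
  apply (tb M K₁).injective
  rw [map_zero, Polynomial.hom_eval₂, hbb]
  have h1 : (tb M K₁).comp (algebraMap R₁ (FK K₁ M)) = f := rfl
  rw [h1, ← Polynomial.eval_map, hQ, Polynomial.eval_map]
  exact hPb

end DP3

end Fermat.Agent.S37.II

end
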