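import Fermat.Agent.S37.II.DefsMod

/-!
# S37 route II, node DP0: calculus of "for all sufficiently large number fields"
(owner helper217)
-/

set_option autoImplicit false

noncomputable section

namespace Fermat.Agent.S37.II

open AlgebraicCurve ModularCurve Fermat.Agent.S24 Fermat.Agent.S18 IntermediateField

theorem ev_and {p q : IntermediateField ℚ Kbar → Prop} (hp : Ev p) (hq : Ev q) :
    Ev fun K₁ => p K₁ ∧ q K₁ := by
  obtain ⟨K₀, h, hK⟩ := hp
  obtain ⟨K₀', h', hK'⟩ := hq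
  exact ⟨K₀ ⊔ K₀', IntermediateField.finiteDimensional_sup K₀ K₀', fun K₁ hle =>
    ⟨hK K₁ (le_sup_left.trans hle), hK' K₁ (le_sup_right.trans hle)⟩⟩

theorem ev_mono {p q : IntermediateField ℚ Kbar → Prop} (hp : Ev p) (h : ∀ K₁, p K₁ → q K₁) :
    Ev q := by
  obtain ⟨K₀, h0, hK⟩ := hp
  exact ⟨K₀, h0, fun K₁ hle => h K₁ (hK K₁ hle)⟩

theorem ev_finset {ι : Type*} (s : Finset ι) {p : ι → IntermediateField ℚ Kbar → Prop}
    (hp : ∀ i ∈ s, Ev (p i)) : Ev fun K₁ => ∀ i ∈ s, p i K₁ := by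
  classical
  induction s using Finset.induction_on with
  | empty =>
    exact ⟨⊥, inferInstance, fun K₁ _ i hi => absurd hi (Finset.notMem_empty i)⟩
  | insert a s ha ih =>
    have h1 := hp a (Finset.mem_insert_self a s)
    have h2 := ih fun i hi => hp i (Finset.mem_insert_of_mem hi)
    refine ev_mono (ev_and h1 h2) fun K₁ hK i hi => ?_
    rcases Finset.mem_insert.mp hi with rfl | hi
    · exact hK.1
    · exact hK.2 i hi

theorem ev_exists_finite {p : IntermediateField ℚ Kbar → Prop} (hp : Ev p) :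
    ∃ K₁ : IntermediateField ℚ Kbar, FiniteDimensional ℚ K₁ ∧ p K₁ := by
  obtain ⟨K₀, h, hK⟩ := hp
  exact ⟨K₀, h, hK K₀ le_rfl⟩

theorem ev_mem (c : Kbar) : Ev fun K₁ => c ∈ K₁ := by
  have halg : Algebra.IsAlgebraic ℚ Kbar := AlgebraicClosure.isAlgebraic ℚ
  exact ⟨ℚ⟮c⟯, IntermediateField.adjoin.finiteDimensional (Algebra.IsIntegral.isIntegral c),
    fun K₁ hle => hle (mem_adjoin_simple_self ℚ c)⟩

theorem ev_defined (M : ℕ) (t : FN M) : Ev fun K₁ => ∃ t₁ : FK K₁ M, tb M K₁ t₁ = t := by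
  have halg : Algebra.IsAlgebraic ℚ Kbar := AlgebraicClosure.isAlgebraic ℚ
  obtain ⟨K₀, h, hK⟩ := Descent.exists_definedOver (F₀ := modularFunctionFieldFull M) t.2
  refine ⟨K₀, h, fun K₁ hle => ?_⟩
  obtain ⟨y, hy, hyt⟩ := hK.mono hle
  exact ⟨⟨y, hy⟩, Subtype.ext hyt⟩

end Fermat.Agent.S37.II

end
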