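import Fermat.Agent.S37.II.DefsMod
import Fermat.Agent.S37.Statements
import Fermat.Agent.S37.Val
import Fermat.Agent.S37.LF.Rational
import Fermat.Agent.S18.Descent.HorizontalBC
import Fermat.Agent.S18.Descent.FF1

/-!
# S37 route II, node DP1: a Galois-fixed place with a uniformiser defined over `K₁` lies over a
rational unramified place of `F_{K₁}`.
-/

set_option autoImplicit false

noncomputable section

namespace Fermat.Agent.S37.II

open AlgebraicCurve ModularCurve Fermat.Agent.S24 Fermat.Agent.S18 IntermediateField Polynomial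

/-- an element of `ℚ̄` fixed by all automorphisms fixing `K₁` lies in `K₁` -/
theorem dp1_mem_of_fixed (K₁ : IntermediateField ℚ Kbar) (c : Kbar)
    (hc : ∀ σ : Kbar ≃ₐ[ℚ] Kbar, (∀ a ∈ K₁, σ a = a) → σ c = c) : c ∈ K₁ := by
  have : IsAlgClosure ℚ Kbar := ⟨inferInstance, AlgebraicClosure.isAlgebraic ℚ⟩
  have : IsGalois ℚ Kbar := inferInstance
  rw [← InfiniteGalois.fixedField_fixingSubgroup K₁, IntermediateField.mem_fixedField_iff]
  intro σ hσ
  exact hc σ ((IntermediateField.mem_fixingSubgroup_iff K₁ σ).mp hσ)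

/-- the value at a Galois-fixed place of a function defined over `K₁` lies in `K₁` -/
theorem dp1_val_mem (M : ℕ) (K₁ : IntermediateField ℚ Kbar) (P : Pl M)
    (hfix : ∀ σ : Kbar ≃ₐ[ℚ] Kbar, (∀ c ∈ K₁, σ c = c) → gal M σ • P = P) (g : FK K₁ M) :
    val P (tb M K₁ g) ∈ K₁ := by
  apply dp1_mem_of_fixed
  intro σ hσ
  have hσ' : σ ∈ K₁.fixingSubgroup := (IntermediateField.mem_fixingSubgroup_iff K₁ σ).mpr hσ
  have h1 := val_smul (gal M σ) P (tb M K₁ g)
  rw [hfix σ hσ, rat_gal_smul_toB M hσ'] at h1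
  exact h1.symm

theorem exists_ratOver (M : ℕ) [NeZero M] (K₁ : IntermediateField ℚ Kbar) (P : Pl M)
    (ht : ∃ t₁ : FK K₁ M, P.ord (tb M K₁ t₁) = 1)
    (hfix : ∀ σ : Kbar ≃ₐ[ℚ] Kbar, (∀ c ∈ K₁, σ c = c) → gal M σ • P = P) :
    ∃ w : Place K₁ (FK K₁ M), RatOver M K₁ P w := by
  obtain ⟨t₁, ht₁⟩ := ht
  have : FF.IsFF1 K₁ (FK K₁ M) := Descent.isFF1_modular M K₁
  let V : ValuationSubring (FK K₁ M) := P.toValuationSubring.comap (tb M K₁)
  have hK : ∀ a : K₁, algebraMap K₁ (FK K₁ M) a ∈ V := by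
    intro a
    rw [ValuationSubring.mem_comap, Descent.toBar_algebraMap]
    exact P.algebraMap_mem' _
  have hV : V ≠ ⊤ := by
    intro h
    have h1 : t₁⁻¹ ∈ V := h ▸ ValuationSubring.mem_top _
    rw [ValuationSubring.mem_comap, map_inv₀] at h1
    have h2 := FF.ord_nonneg_of_mem P h1
    rw [P.ord_inv, ht₁] at h2
    omega
  let w : Place K₁ (FK K₁ M) := Descent.placeOfVS V hK hV
  have hover : Descent.PlaceOver (tb M K₁) P w := fun f => Iff.rfl
  have hord : ∀ g : FK K₁ M, P.ord (tb M K₁ g) = w.ord g := hover.ord_eq_of_ord_eq_one ht₁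
  have hval : ∀ g : FK K₁ M, 0 ≤ w.ord g → ∃ c₁ : K₁,
      algebraMap K₁ Kbar c₁ = val P (tb M K₁ g) ∧
        (g = algebraMap K₁ (FK K₁ M) c₁ ∨ 0 < w.ord (g - algebraMap K₁ (FK K₁ M) c₁)) := by
    intro g hg
    have hg' : 0 ≤ P.ord (tb M K₁ g) := by
      rw [hord]
      exact hg
    refine ⟨⟨_, dp1_val_mem M K₁ P hfix g⟩, rfl, ?_⟩
    rcases val_spec hg' with h | h
    · left
      apply (tb M K₁).injective
      rw [Descent.toBar_algebraMap]
      exact h
    · right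
      rw [← hord, map_sub, Descent.toBar_algebraMap]
      exact h
  refine ⟨w, hover, fun g hg => ?_, hord, fun g hg => ?_⟩
  · obtain ⟨c₁, _, h⟩ := hval g hg
    exact ⟨c₁, h⟩
  · obtain ⟨c₁, h1, h⟩ := hval g hg
    rw [val_eq_of h, h1]

end Fermat.Agent.S37.II

end
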