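import Fermat.Agent.S37.II.DefsMod
import Fermat.Agent.S37.II.ValRat
import Fermat.Agent.S37.II.Descent.Chart

/-!
# S37 route II, node DP3b: comparison of the reduction maps over `ℚ̄` and over a number field `K₁`
(helper246)
-/

set_option autoImplicit false

noncomputable section

namespace Fermat.Agent.S37.II

open AlgebraicCurve ModularCurve Fermat.Agent.S24 Fermat.Agent.S18 IntermediateField Polynomial

/-- the nonunits of a valuation ring: `a = 0` or `a⁻¹ ∉ A` -/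
theorem dp3b_mem_nonunits_iff_inv {K : Type*} [Field K] (A : ValuationSubring K) (a : K) :
    a ∈ A.nonunits ↔ a = 0 ∨ a⁻¹ ∉ A := by
  rw [ValuationSubring.mem_nonunits_iff]
  by_cases ha : a = 0
  · simp [ha]
  · have hv : A.valuation a ≠ 0 := (_root_.map_ne_zero _).mpr ha
    rw [← ValuationSubring.valuation_le_one_iff, map_inv₀, not_le,
      one_lt_inv₀ (zero_lt_iff.mpr hv)]
    simp [ha]

/-- the nonunits of the restriction of `A` -/
theorem dp3b_mem_nonunits_rs_iff (A : ValuationSubring Kbar) (K₁ : IntermediateField ℚ Kbar)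
    (d : K₁) : d ∈ (rs A K₁).nonunits ↔ algebraMap K₁ Kbar d ∈ A.nonunits := by
  rw [dp3b_mem_nonunits_iff_inv, dp3b_mem_nonunits_iff_inv, ValuationSubring.mem_comap, map_inv₀,
    map_eq_zero]

section DP3

variable {M ℓ : ℕ} (B : BaseData M ℓ) (A : ValuationSubring Kbar)

theorem resV_rs_eq_iff (K₁ : IntermediateField ℚ Kbar) (c c' : K₁) (hc : c ∈ rs A K₁)
    (hc' : c' ∈ rs A K₁) :
    resV (rs A K₁) c = resV (rs A K₁) c' ↔
      resV A (algebraMap K₁ Kbar c) = resV A (algebraMap K₁ Kbar c') := by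
  rw [resV_eq_iff _ hc hc', resV_eq_iff A (c := algebraMap K₁ Kbar c)
    (c' := algebraMap K₁ Kbar c') hc hc', ← map_sub, dp3b_mem_nonunits_rs_iff]

theorem inFin_iff_of_ratOver {K₁ : IntermediateField ℚ Kbar} {P : Pl M}
    {w : Place K₁ (FK K₁ M)} (h : RatOver M K₁ P w) (z : FK K₁ M) :
    InFin (rs A K₁) z w ↔ InFin A (tb M K₁ z) P := by
  unfold InFin
  rw [h.ord_eq]
  constructor
  · rintro ⟨h0, h1⟩
    exact ⟨h0, by rw [← h.val_eq z h0]; exact h1⟩
  · rintro ⟨h0, h1⟩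
    exact ⟨h0, by rw [← h.val_eq z h0] at h1; exact h1⟩

theorem dp3b_red_of_inFin {K F : Type*} [Field K] [Field F] [Algebra K F] (A : ValuationSubring K)
    (x : F) (P : Place K F) (h : InFin A x P) :
    red A x P = Sum.inl fun b => resV A (val P b.1) := by
  unfold red
  rw [if_pos h]

theorem dp3b_red_of_not_inFin {K F : Type*} [Field K] [Field F] [Algebra K F] (A : ValuationSubring K)
    (x : F) (P : Place K F) (h : ¬ InFin A x P) :
    red A x P = Sum.inr fun b => resV A (val P b.1) := by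
  unfold red
  rw [if_neg h]

/-- comparison on one chart -/
theorem dp3b_red_chart_eq_iff {K₁ : IntermediateField ℚ Kbar} {P P' : Pl M}
    {w w' : Place K₁ (FK K₁ M)} (h : RatOver M K₁ P w) (h' : RatOver M K₁ P' w')
    (z₁ : FK K₁ M) (z : FN M) (hz : tb M K₁ z₁ = z)
    (hw : InFin (rs A K₁) z₁ w) (hw' : InFin (rs A K₁) z₁ w')
    (hsep : (∃ b ∈ chart A.toSubring z, resV A (val P b) ≠ resV A (val P' b)) →
      ∃ b₁ ∈ chart (rs A K₁).toSubring z₁,
        resV A (val P (tb M K₁ b₁)) ≠ resV A (val P' (tb M K₁ b₁))) :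
    ((fun b : chart A.toSubring z => resV A (val P b.1)) =
        fun b => resV A (val P' b.1)) ↔
      ((fun b : chart (rs A K₁).toSubring z₁ => resV (rs A K₁) (val w b.1)) =
        fun b => resV (rs A K₁) (val w' b.1)) := by
  subst hz
  have key : ∀ b₁ ∈ chart (rs A K₁).toSubring z₁,
      (resV (rs A K₁) (val w b₁) = resV (rs A K₁) (val w' b₁) ↔
        resV A (val P (tb M K₁ b₁)) = resV A (val P' (tb M K₁ b₁))) := by
    intro b₁ hb₁
    obtain ⟨h0, h1⟩ := val_mem_of_mem_chart (rs A K₁) z₁ w h.rat hw b₁ hb₁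
    obtain ⟨h0', h1'⟩ := val_mem_of_mem_chart (rs A K₁) z₁ w' h'.rat hw' b₁ hb₁
    rw [resV_rs_eq_iff A K₁ _ _ h1 h1', h.val_eq b₁ h0, h'.val_eq b₁ h0']
  constructor
  · intro e
    funext b₁
    exact (key b₁.1 b₁.2).2 (congrFun e ⟨tb M K₁ b₁.1, tb_mem_chart A K₁ z₁ b₁.1 b₁.2⟩)
  · intro e
    by_contra hne
    obtain ⟨b, hb⟩ := Function.ne_iff.mp hne
    obtain ⟨b₁, hb₁, hne₁⟩ := hsep ⟨b.1, b.2, hb⟩
    exact hne₁ ((key b₁ hb₁).1 (congrFun e ⟨b₁, hb₁⟩))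

/-- the comparison for an arbitrary coordinate defined over `K₁` -/
theorem dp3b_red_eq_iff_aux {K₁ : IntermediateField ℚ Kbar} {P P' : Pl M}
    {w w' : Place K₁ (FK K₁ M)} (h : RatOver M K₁ P w) (h' : RatOver M K₁ P' w')
    (z₁ : FK K₁ M) (z : FN M) (hz : tb M K₁ z₁ = z)
    (hsep₁ : (∃ b ∈ chart A.toSubring z, resV A (val P b) ≠ resV A (val P' b)) →
      ∃ b₁ ∈ chart (rs A K₁).toSubring z₁,
        resV A (val P (tb M K₁ b₁)) ≠ resV A (val P' (tb M K₁ b₁)))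
    (hsep₂ : (∃ b ∈ chart A.toSubring z⁻¹, resV A (val P b) ≠ resV A (val P' b)) →
      ∃ b₁ ∈ chart (rs A K₁).toSubring z₁⁻¹,
        resV A (val P (tb M K₁ b₁)) ≠ resV A (val P' (tb M K₁ b₁))) :
    red A z P = red A z P' ↔ red (rs A K₁) z₁ w = red (rs A K₁) z₁ w' := by
  have hin : InFin (rs A K₁) z₁ w ↔ InFin A z P := hz ▸ inFin_iff_of_ratOver A h z₁
  have hin' : InFin (rs A K₁) z₁ w' ↔ InFin A z P' := hz ▸ inFin_iff_of_ratOver A h' z₁
  by_cases hw : InFin (rs A K₁) z₁ w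
  · by_cases hw' : InFin (rs A K₁) z₁ w'
    · rw [dp3b_red_of_inFin _ _ _ hw, dp3b_red_of_inFin _ _ _ hw', dp3b_red_of_inFin _ _ _ (hin.1 hw),
        dp3b_red_of_inFin _ _ _ (hin'.1 hw'), Sum.inl.injEq, Sum.inl.injEq]
      exact dp3b_red_chart_eq_iff A h h' z₁ z hz hw hw' hsep₁
    · rw [dp3b_red_of_inFin _ _ _ hw, dp3b_red_of_not_inFin _ _ _ hw', dp3b_red_of_inFin _ _ _ (hin.1 hw),
        dp3b_red_of_not_inFin _ _ _ (fun hh => hw' (hin'.2 hh))]
      simp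
  · by_cases hw' : InFin (rs A K₁) z₁ w'
    · rw [dp3b_red_of_not_inFin _ _ _ hw, dp3b_red_of_inFin _ _ _ hw',
        dp3b_red_of_not_inFin _ _ _ (fun hh => hw (hin.2 hh)), dp3b_red_of_inFin _ _ _ (hin'.1 hw')]
      simp
    · rw [dp3b_red_of_not_inFin _ _ _ hw, dp3b_red_of_not_inFin _ _ _ hw',
        dp3b_red_of_not_inFin _ _ _ (fun hh => hw (hin.2 hh)),
        dp3b_red_of_not_inFin _ _ _ (fun hh => hw' (hin'.2 hh)), Sum.inr.injEq, Sum.inr.injEq]
      have e : tb M K₁ z₁⁻¹ = z⁻¹ := by rw [← hz]; exact map_inv₀ (tb M K₁) z₁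
      have h1 := inv_of_not_inFin (rs A K₁) z₁ w h.rat hw
      have h1' := inv_of_not_inFin (rs A K₁) z₁ w' h'.rat hw'
      exact dp3b_red_chart_eq_iff A h h' z₁⁻¹ z⁻¹ e ⟨h1.1, ValuationSubring.nonunits_subset h1.2⟩
        ⟨h1'.1, ValuationSubring.nonunits_subset h1'.2⟩ hsep₂

theorem red_eq_iff_of_ratOver [NeZero M] {K₁ : IntermediateField ℚ Kbar} {P P' : Pl M}
    {w w' : Place K₁ (FK K₁ M)} (h : RatOver M K₁ P w) (h' : RatOver M K₁ P' w')
    (hsep₁ : (∃ b ∈ chart A.toSubring (B.xK Kbar), resV A (val P b) ≠ resV A (val P' b)) →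
      ∃ b₁ ∈ chart (rs A K₁).toSubring (B.xK K₁),
        resV A (val P (tb M K₁ b₁)) ≠ resV A (val P' (tb M K₁ b₁)))
    (hsep₂ : (∃ b ∈ chart A.toSubring (B.xK Kbar)⁻¹, resV A (val P b) ≠ resV A (val P' b)) →
      ∃ b₁ ∈ chart (rs A K₁).toSubring (B.xK K₁)⁻¹,
        resV A (val P (tb M K₁ b₁)) ≠ resV A (val P' (tb M K₁ b₁))) :
    red A (B.xK Kbar) P = red A (B.xK Kbar) P' ↔
      red (rs A K₁) (B.xK K₁) w = red (rs A K₁) (B.xK K₁) w' :=
  dp3b_red_eq_iff_aux A h h' _ _ (tb_xK B K₁) hsep₁ hsep₂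

end DP3

end Fermat.Agent.S37.II

end
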