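import Fermat.Agent.S37.II.DefsMod
import Fermat.Agent.S37.Statements
import Fermat.Agent.S27.Approx

/-!
# S37 route II, node DP2: the stabiliser of a zero or pole contains `Gal(ℚ̄ / K₁)` as soon as the
function and enough separators are defined over `K₁`.  (architect helper105, proofs helper82)
-/

set_option autoImplicit false

noncomputable section

namespace Fermat.Agent.S37.II

open AlgebraicCurve ModularCurve Fermat.Agent.S24 Fermat.Agent.S18 IntermediateField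

theorem exists_separator (M : ℕ) [NeZero M] {P P' : Pl M} (h : P ≠ P') :
    ∃ g : FN M, 0 < P.ord g ∧ P'.ord g ≤ 0 := by
  obtain ⟨u, h1, h2⟩ := Fermat.Agent.S27.exists_ord_pos_neg h
  exact ⟨u, h1, h2.le⟩

/-- functions defined over `K₁` are fixed by `Gal(ℚ̄ / K₁)`. -/
theorem stab_gal_smul_tb (M : ℕ) (K₁ : IntermediateField ℚ Kbar) (σ : Kbar ≃ₐ[ℚ] Kbar)
    (hσ : ∀ c ∈ K₁, σ c = c) (g : FK K₁ M) : gal M σ • tb M K₁ g = tb M K₁ g := by
  apply Subtype.ext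
  rw [coe_arithmeticGalois_smul, Descent.coe_baseChangeMap, coeffMap_coeffMap]
  exact coeffMap_congr (RingHom.ext fun c => hσ _ c.2) _

theorem smul_eq_of_separators (M : ℕ) [NeZero M] (K₁ : IntermediateField ℚ Kbar)
    (f₁ : FK K₁ M)
    (hsep : ∀ P P' : Pl M, P.ord (tb M K₁ f₁) ≠ 0 → P'.ord (tb M K₁ f₁) ≠ 0 → P ≠ P' →
      ∃ g₁ : FK K₁ M, 0 < P.ord (tb M K₁ g₁) ∧ P'.ord (tb M K₁ g₁) ≤ 0)
    (σ : Kbar ≃ₐ[ℚ] Kbar) (hσ : ∀ c ∈ K₁, σ c = c) (P : Pl M) (hP : P.ord (tb M K₁ f₁) ≠ 0) :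
    gal M σ • P = P := by
  by_contra hne
  have key : ∀ g : FK K₁ M, (gal M σ • P).ord (tb M K₁ g) = P.ord (tb M K₁ g) := by
    intro g
    have := SemilinearAut.ord_smul (gal M σ) P (tb M K₁ g)
    rwa [stab_gal_smul_tb M K₁ σ hσ g] at this
  obtain ⟨g₁, h1, h2⟩ := hsep P (gal M σ • P) hP (by rw [key]; exact hP) (Ne.symm hne)
  rw [key] at h2
  omega

end Fermat.Agent.S37.II

end
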