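import Fermat.Agent.S37.II.Finsupp
import Fermat.Agent.S37.II.Descent.Ev
import Fermat.Agent.S37.II.Descent.Stab
import Fermat.Agent.S37.II.Descent.Chart
import Fermat.Agent.S37.II.Descent.Rational
import Fermat.Agent.S37.II.Descent.Red

/-!
# S37 route II, node DP4 (owner helper289): the descent package `exists_descent`.

Uses DP0 (`Ev.lean`), DP1 (`Rational.lean`), DP2 (`Stab.lean`), DP3 (`Chart.lean`, `Red.lean`) and
TR (`Finsupp.lean`).
-/

set_option autoImplicit false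

noncomputable section

namespace Fermat.Agent.S37.II

open AlgebraicCurve ModularCurve Fermat.Agent.S24 Fermat.Agent.S18 IntermediateField Polynomial
open Fermat.Agent.S37.HeckeInputs Fermat.Agent.S37.II

/-- an implication with a constant premise -/
private theorem ev_imp {q : Prop} {p : IntermediateField ℚ Kbar → Prop} (h : q → Ev p) :
    Ev fun K₁ => q → p K₁ := by
  by_cases hq : q
  · exact ev_mono (h hq) fun K₁ hK _ => hK
  · exact ev_mono (ev_mem 0) fun K₁ _ hq' => absurd hq' hq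

/-- descent of a separating element of a chart -/
private theorem ev_chart_sep {M ℓ : ℕ} [NeZero M] (B : BaseData M ℓ) (A : ValuationSubring Kbar)
    (P P' : Pl M) :
    Ev fun K₁ => (∃ b ∈ chart A.toSubring (B.xK Kbar), resV A (val P b) ≠ resV A (val P' b)) →
      ∃ b₁ ∈ chart (rs A K₁).toSubring (B.xK K₁),
        resV A (val P (tb M K₁ b₁)) ≠ resV A (val P' (tb M K₁ b₁)) := by
  refine ev_imp ?_
  rintro ⟨b, hb, hne⟩
  have hb' : b ∈ chart A.toSubring (tb M ⊥ (B.xK (⊥ : IntermediateField ℚ Kbar))) := by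
    rw [tb_xK]; exact hb
  refine ev_mono (ev_mem_chart A ⊥ (B.xK (⊥ : IntermediateField ℚ Kbar)) b hb') ?_
  rintro K₁ ⟨z₁, b₁, hz₁, hb₁, hmem⟩
  have hz : z₁ = B.xK K₁ := by
    apply (tb M K₁).injective
    rw [hz₁, tb_xK, tb_xK]
  subst hz
  exact ⟨b₁, hmem, by rw [hb₁]; exact hne⟩

/-- descent of a separating element of the chart at infinity -/
private theorem ev_chart_sep_inv {M ℓ : ℕ} [NeZero M] (B : BaseData M ℓ)
    (A : ValuationSubring Kbar) (P P' : Pl M) :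
    Ev fun K₁ => (∃ b ∈ chart A.toSubring (B.xK Kbar)⁻¹, resV A (val P b) ≠ resV A (val P' b)) →
      ∃ b₁ ∈ chart (rs A K₁).toSubring (B.xK K₁)⁻¹,
        resV A (val P (tb M K₁ b₁)) ≠ resV A (val P' (tb M K₁ b₁)) := by
  refine ev_imp ?_
  rintro ⟨b, hb, hne⟩
  have hb' : b ∈ chart A.toSubring (tb M ⊥ (B.xK (⊥ : IntermediateField ℚ Kbar))⁻¹) := by
    rw [map_inv₀, tb_xK]; exact hb
  refine ev_mono (ev_mem_chart A ⊥ (B.xK (⊥ : IntermediateField ℚ Kbar))⁻¹ b hb') ?_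
  rintro K₁ ⟨z₁, b₁, hz₁, hb₁, hmem⟩
  have hz : z₁ = (B.xK K₁)⁻¹ := by
    apply (tb M K₁).injective
    rw [hz₁, map_inv₀, map_inv₀, tb_xK, tb_xK]
  subst hz
  exact ⟨b₁, hmem, by rw [hb₁]; exact hne⟩

theorem exists_descent {M ℓ : ℕ} [NeZero M] (B : BaseData M ℓ) (A : ValuationSubring Kbar)
    (f : FN M) (_hf : f ≠ 0) (D : Divisor Kbar (FN M)) (hD : ∀ v, D v = v.ord f)
    (T : Finset (FN M)) :
    ∃ (K₁ : IntermediateField ℚ Kbar) (_ : FiniteDimensional ℚ K₁) (f₁ : FK K₁ M)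
      (D₁ : Divisor K₁ (FK K₁ M)),
      tb M K₁ f₁ = f ∧ (∀ t ∈ T, ∃ t₁ : FK K₁ M, tb M K₁ t₁ = t) ∧
      (∀ v : Place K₁ (FK K₁ M), D₁ v = v.ord f₁) ∧
      (∀ v ∈ D₁.support, IsRat v) ∧
      (redDiv A (B.xK Kbar) D = 0 ↔ redDiv (rs A K₁) (B.xK K₁) D₁ = 0) := by
  classical
  have e1 : Ev fun K₁ => ∃ f₁ : FK K₁ M, tb M K₁ f₁ = f := ev_defined M f
  have e2 : Ev fun K₁ => ∀ t ∈ T, ∃ t₁ : FK K₁ M, tb M K₁ t₁ = t :=
    ev_finset T fun t _ => ev_defined M t
  have e3 : Ev fun K₁ => ∀ P ∈ D.support, ∃ t₁ : FK K₁ M, P.ord (tb M K₁ t₁) = 1 := by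
    refine ev_finset D.support fun P _ => ?_
    obtain ⟨π, hπ⟩ := FF.exists_ord_eq_one P
    refine ev_mono (ev_defined M π) ?_
    rintro K₁ ⟨t₁, ht₁⟩
    exact ⟨t₁, by rw [ht₁]; exact hπ⟩
  have e4 : Ev fun K₁ => ∀ P ∈ D.support, ∀ P' ∈ D.support, P ≠ P' →
      ∃ g₁ : FK K₁ M, 0 < P.ord (tb M K₁ g₁) ∧ P'.ord (tb M K₁ g₁) ≤ 0 := by
    refine ev_finset D.support fun P _ => ev_finset D.support fun P' _ => ev_imp ?_
    intro hne
    obtain ⟨g, hg⟩ := exists_separator M hne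
    refine ev_mono (ev_defined M g) ?_
    rintro K₁ ⟨g₁, hg₁⟩
    exact ⟨g₁, by rw [hg₁]; exact hg⟩
  have e5 := ev_finset D.support fun P _ =>
    ev_finset D.support fun P' _ => ev_chart_sep B A P P'
  have e6 := ev_finset D.support fun P _ =>
    ev_finset D.support fun P' _ => ev_chart_sep_inv B A P P'
  obtain ⟨K₁, hfin, ⟨f₁, hf₁⟩, h2, h3, h4, h5, h6⟩ := ev_exists_finite
    (ev_and e1 (ev_and e2 (ev_and e3 (ev_and e4 (ev_and e5 e6)))))
  have hS : ∀ P : Pl M, P ∈ D.support ↔ P.ord (tb M K₁ f₁) ≠ 0 := by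
    intro P
    rw [Finsupp.mem_support_iff, hD, hf₁]
  -- the places of the support are rational over `K₁`
  have hrat : ∀ P ∈ D.support, ∃ w : Place K₁ (FK K₁ M), RatOver M K₁ P w := by
    intro P hP
    refine exists_ratOver M K₁ P (h3 P hP) fun σ hσ => ?_
    exact smul_eq_of_separators M K₁ f₁
      (fun Q Q' hQ hQ' hne => h4 Q ((hS Q).2 hQ) Q' ((hS Q').2 hQ') hne) σ hσ P ((hS P).1 hP)
  by_cases hne : Nonempty (Place K₁ (FK K₁ M))
  swap
  · -- no places at all: the support is empty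
    have hD0 : D = 0 := by
      rw [← Finsupp.support_eq_empty, Finset.eq_empty_iff_forall_notMem]
      intro P hP
      obtain ⟨w, -⟩ := hrat P hP
      exact hne ⟨w⟩
    exact ⟨K₁, hfin, f₁, 0, hf₁, h2, fun v => absurd ⟨v⟩ hne, by simp, by rw [hD0]; simp⟩
  obtain ⟨w₀⟩ := hne
  have hex : ∀ P : Pl M, ∃ w : Place K₁ (FK K₁ M), P ∈ D.support → RatOver M K₁ P w := by
    intro P
    by_cases hP : P ∈ D.support
    · obtain ⟨w, hw⟩ := hrat P hP
      exact ⟨w, fun _ => hw⟩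
    · exact ⟨w₀, fun h => absurd h hP⟩
  choose w hw using hex
  have hinj : ∀ P ∈ D.support, ∀ P' ∈ D.support, w P = w P' → P = P' := by
    intro P hP P' hP' heq
    by_contra hne
    obtain ⟨g₁, hg, hg'⟩ := h4 P hP P' hP' hne
    rw [(hw P hP).ord_eq] at hg
    rw [(hw P' hP').ord_eq, ← heq] at hg'
    omega
  refine ⟨K₁, hfin, f₁, Finsupp.mapDomain w D, hf₁, h2, ?_, ?_, ?_⟩
  · intro v
    rw [mapDomain_apply_eq_sum]
    by_cases hv : ∃ P ∈ D.support, w P = v
    · obtain ⟨P, hP, rfl⟩ := hv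
      have hfilt : D.support.filter (fun a => w a = w P) = {P} := by
        ext Q
        simp only [Finset.mem_filter, Finset.mem_singleton]
        constructor
        · rintro ⟨hQ, hQP⟩
          exact hinj Q hQ P hP hQP
        · rintro rfl
          exact ⟨hP, rfl⟩
      rw [hfilt, Finset.sum_singleton, hD, ← hf₁, (hw P hP).ord_eq]
    · have hfilt : D.support.filter (fun a => w a = v) = ∅ := by
        rw [Finset.filter_eq_empty_iff]
        intro Q hQ hQv
        exact hv ⟨Q, hQ, hQv⟩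
      rw [hfilt, Finset.sum_empty]
      by_contra h0
      obtain ⟨P, hP⟩ := Descent.exists_placeOver_bar (F₀ := modularFunctionFieldFull M)
        (K₀ := K₁) v
      obtain ⟨e, he, hord⟩ := hP.exists_ord_eq_mul
      have hPS : P ∈ D.support := by
        rw [hS, hord]
        exact mul_ne_zero he.ne' (Ne.symm h0)
      exact hv ⟨P, hPS, (hw P hPS).placeOver.right_unique hP⟩
  · intro v hv
    have hv' := Finsupp.mapDomain_support hv
    rw [Finset.mem_image] at hv'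
    obtain ⟨P, hP, rfl⟩ := hv'
    exact (hw P hP).rat
  · rw [redDiv_apply, redDiv_apply, ← Finsupp.mapDomain_comp]
    exact mapDomain_eq_zero_iff_of_fiber _ _ D fun P hP P' hP' =>
      red_eq_iff_of_ratOver B A (hw P hP) (hw P' hP') (h5 P hP P' hP') (h6 P hP P' hP')

end Fermat.Agent.S37.II

end
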